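/-
Row 37 (S43), block CORE (helper288): `nodeCore : NodeCore`.
From the deformation datum `Deform.Data p` we build the endgame datum `Endgame.Data p`
(pure linear algebra over `ZMod p`; paper proof of helper5).
-/
import Fermat.Agent.S43.Deform.Defs

set_option autoImplicit false

namespace Fermat.Agent.S43.Deform

open Polynomial

/-! ## Geometric sums in characteristic `p` -/
section Geom

variable {p : ℕ} [Fact p.Prime]

private theorem core_poly_pow (a : ℕ) :
    (1 + X : (ZMod p)[X]) ^ (p ^ a) = 1 + X ^ (p ^ a) := by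
  rw [add_pow_char_pow, one_pow]

private theorem core_poly_geom (a : ℕ) :
    ∑ j ∈ Finset.range (p ^ a), (1 + X : (ZMod p)[X]) ^ j = X ^ (p ^ a - 1) := by
  have h1 := geom_sum_mul (1 + X : (ZMod p)[X]) (p ^ a)
  have hpos : 0 < p ^ a := pow_pos (Fact.out : p.Prime).pos a
  have h3 : (X : (ZMod p)[X]) ^ (p ^ a) = X ^ (p ^ a - 1) * X := by
    rw [← pow_succ, Nat.sub_add_cancel hpos]
  rw [core_poly_pow, add_sub_cancel_left, add_sub_cancel_left, h3] at h1
  exact mul_right_cancel₀ X_ne_zero h1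

variable {W : Type*} [AddCommGroup W] [Module (ZMod p) W]

private theorem core_geom_P (T : Module.End (ZMod p) W) (a : ℕ) :
    ∑ j ∈ Finset.range (p ^ a), (1 + T) ^ j = T ^ (p ^ a - 1) := by
  have := congrArg (aeval T) (core_poly_geom (p := p) a)
  simpa using this

private theorem core_pow_P (T : Module.End (ZMod p) W) (a : ℕ) (hT : T ^ (p ^ a) = 0) :
    (1 + T) ^ (p ^ a) = 1 := by
  have := congrArg (aeval T) (core_poly_pow (p := p) a)
  simpa [hT] using this

private theorem core_geom_mul {R : Type*} [Ring R] (Y : R) (P κ : ℕ) (hY : Y ^ P = 1) :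
    ∑ j ∈ Finset.range (κ * P), Y ^ j = κ • ∑ j ∈ Finset.range P, Y ^ j := by
  induction κ with
  | zero => simp
  | succ k ih =>
    rw [Nat.succ_mul, Finset.sum_range_add, ih, succ_nsmul]
    congr 1
    apply Finset.sum_congr rfl
    intro j _
    rw [pow_add, pow_mul', hY, one_pow, one_mul]

private theorem core_geom_q (T : Module.End (ZMod p) W) (a κ : ℕ) (hT : T ^ (p ^ a) = 0) :
    ∑ j ∈ Finset.range (1 + κ * p ^ a), (1 + T) ^ j =
      1 + (κ : ZMod p) • T ^ (p ^ a - 1) := by
  have hY := core_pow_P T a hT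
  rw [add_comm 1, Finset.sum_range_succ, core_geom_mul _ _ _ hY, core_geom_P, pow_mul', hY,
    one_pow, add_comm, Nat.cast_smul_eq_nsmul]

end Geom

/-! ## Operators induced on a quotient -/
section Abstract

variable {k : Type*} [Field k] {W W0 : Type*} [AddCommGroup W] [Module k W] [AddCommGroup W0]
  [Module k W0]

private theorem core_exists_rel (pr : W →ₗ[k] W0) (hpr : Function.Surjective pr)
    (Nm y : Module.End k W) (h1 : ∀ x, ∃ z, Nm z = y x)
    (h2 : ∀ x z, pr x = 0 → Nm z = y x → pr z = 0) :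
    ∃ Z0 : Module.End k W0, ∀ x z, Nm z = y x → Z0 (pr x) = pr z := by
  obtain ⟨s, hs⟩ := pr.exists_rightInverse_of_surjective (LinearMap.range_eq_top.2 hpr)
  obtain ⟨r', hr'⟩ := Nm.rangeRestrict.exists_rightInverse_of_surjective
    (LinearMap.range_rangeRestrict Nm)
  obtain ⟨r, hr⟩ := LinearMap.exists_extend r'
  have hs' : ∀ x0, pr (s x0) = x0 := fun x0 => LinearMap.congr_fun hs x0
  have hr2 : ∀ v (_ : v ∈ LinearMap.range Nm), Nm (r v) = v := by
    intro v hv
    have e1 : r v = r' ⟨v, hv⟩ := LinearMap.congr_fun hr ⟨v, hv⟩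
    have e2 := LinearMap.congr_fun hr' ⟨v, hv⟩
    rw [e1]
    exact congrArg Subtype.val e2
  refine ⟨pr ∘ₗ r ∘ₗ y ∘ₗ s, fun x z hz => ?_⟩
  show pr (r (y (s (pr x)))) = pr z
  have e2 : Nm (r (y (s (pr x)))) = y (s (pr x)) := hr2 _ (h1 _)
  have e3 : Nm (r (y (s (pr x))) - z) = y (s (pr x) - x) := by
    rw [map_sub, map_sub, e2, hz]
  have e4 := h2 _ _ (by rw [map_sub, hs', sub_self]) e3
  rwa [map_sub, sub_eq_zero] at e4

private theorem core_exists_ind (pr : W →ₗ[k] W0) (hpr : Function.Surjective pr)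
    (t : Module.End k W) (h : ∀ x, pr x = 0 → pr (t x) = 0) :
    ∃ t0 : Module.End k W0, ∀ x, t0 (pr x) = pr (t x) := by
  obtain ⟨t0, ht0⟩ := core_exists_rel pr hpr 1 t (fun x => ⟨t x, rfl⟩)
    (fun x z hx hz => by
      rw [Module.End.one_apply] at hz
      rw [hz]
      exact h x hx)
  exact ⟨t0, fun x => ht0 x (t x) rfl⟩

end Abstract

/-! ## The identities of the deformation core -/
section Ident

variable {p : ℕ} [Fact p.Prime] (D : Data p)

/-- `κ Nm` -/
private noncomputable def coreNk : Module.End (ZMod p) D.W := (D.κ : ZMod p) • D.T ^ (D.P - 1)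

/-- `q al⁻¹` -/
private noncomputable def coreQ : Module.End (ZMod p) D.W := (D.q : ZMod p) • D.alinv

/-- `y = F - al - g (S - 1)` -/
private noncomputable def coreY : Module.End (ZMod p) D.W := D.F - D.al - D.g * (D.S - 1)

private theorem core_N_mem (x : D.W) : (D.S - 1) x ∈ D.A := by
  have := D.H2a x
  simpa [LinearMap.sub_apply] using this

private theorem core_B_mem (x : D.W) : (D.F - D.al) x ∈ D.A := by
  have := D.H2b x
  simpa [LinearMap.sub_apply] using this

/-- (0) -/
private theorem core_ker_pow : ∀ k : ℕ, k ≤ D.P → ∀ x, (D.T ^ k) x = 0 →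
    ∃ v, x = (D.T ^ (D.P - k)) v := by
  intro k
  induction k with
  | zero =>
    intro _ x hx
    exact ⟨0, by rw [map_zero]; simpa using hx⟩
  | succ k ih =>
    intro hk x hx
    rw [pow_succ, Module.End.mul_apply] at hx
    obtain ⟨v, hv⟩ := ih (by omega) _ hx
    have e1 : D.P - k = (D.P - (k + 1)) + 1 := by omega
    rw [e1, pow_succ', Module.End.mul_apply] at hv
    have h1 : D.T (x - (D.T ^ (D.P - (k + 1))) v) = 0 := by rw [map_sub, hv, sub_self]
    obtain ⟨w, hw⟩ := D.H1 _ h1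
    have e2 : D.P - 1 = (D.P - (k + 1)) + k := by omega
    rw [e2, pow_add, Module.End.mul_apply] at hw
    refine ⟨v + (D.T ^ k) w, ?_⟩
    rw [map_add, ← hw]
    abel

private theorem core_ker_Nm (x : D.W) (hx : (D.T ^ (D.P - 1)) x = 0) : ∃ v, x = D.T v := by
  have hP := D.hP
  obtain ⟨v, hv⟩ := core_ker_pow D (D.P - 1) (by omega) x hx
  have e : D.P - (D.P - 1) = 1 := by omega
  rw [e, pow_one] at hv
  exact ⟨v, hv⟩

private theorem core_E1 : D.S * (D.S - 1) = (1 + D.T) * (D.S - 1) := by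
  ext x
  have h := D.H2c _ (core_N_mem D x)
  simp only [Module.End.mul_apply, LinearMap.add_apply, Module.End.one_apply]
  exact h

private theorem core_E2 : (D.S - 1) * (D.S - 1) = D.T * (D.S - 1) := by
  linear_combination (norm := noncomm_ring) core_E1 D

private theorem core_E3 : D.T * (D.F - D.al) = (D.S - 1) * (D.F - D.al) := by
  ext x
  have h := D.H2c _ (core_B_mem D x)
  simp only [Module.End.mul_apply]
  rw [LinearMap.sub_apply D.S, h, Module.End.one_apply, add_sub_cancel_left]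

private theorem core_E4 : D.F * (D.S - 1) = coreQ D * (D.S - 1) := by
  ext x
  have h := D.H2d _ (core_N_mem D x)
  simp only [Module.End.mul_apply, coreQ, LinearMap.smul_apply]
  exact h

private theorem core_E5 : D.T * (D.g * (D.S - 1)) =
    coreQ D * (D.S - 1) - D.al * (D.S - 1) - D.al * (coreNk D * (D.S - 1)) := by
  ext x
  have h := D.H3 _ (core_N_mem D x)
  simp only [Module.End.mul_apply, coreQ, coreNk, LinearMap.smul_apply, LinearMap.sub_apply,
    map_smul]
  simp only [LinearMap.sub_apply] at h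
  exact h

private theorem core_E6 (j : ℕ) : D.S ^ j * (D.S - 1) = (1 + D.T) ^ j * (D.S - 1) := by
  induction j with
  | zero => simp
  | succ j ih =>
    have hc : Commute D.S ((1 + D.T) ^ j) :=
      ((Commute.one_right _).add_right (D.S_comm _ D.T_mem)).pow_right j
    rw [pow_succ', mul_assoc, ih, ← mul_assoc, hc.eq, mul_assoc, core_E1, ← mul_assoc, ← pow_succ]

private theorem core_E7 : D.S ^ D.q - 1 = (1 + coreNk D) * (D.S - 1) := by
  obtain ⟨a, ha⟩ := D.hPp
  have hT : D.T ^ (p ^ a) = 0 := by rw [← ha]; exact D.T_pow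
  have h := core_geom_q D.T a D.κ hT
  rw [← ha, ← D.hq] at h
  rw [← geom_sum_mul, Finset.sum_mul, Finset.sum_congr rfl (fun j _ => core_E6 D j),
    ← Finset.sum_mul, h]
  rfl

private theorem core_Nk_mem : coreNk D ∈ D.𝕋 :=
  D.𝕋.smul_mem (D.𝕋.pow_mem D.T_mem _) _

private theorem core_Nk_T : coreNk D * D.T = 0 := by
  have hP := D.hP
  rw [coreNk, smul_mul_assoc, ← pow_succ, Nat.sub_add_cancel hP, D.T_pow, smul_zero]

/-- (2) -/
private theorem core_T_Y : D.T * coreY D = 0 := by
  have c1 : D.al * D.S = D.S * D.al := (D.S_comm _ D.al_mem).eq.symm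
  have c2 : D.al * coreNk D = coreNk D * D.al := (D.𝕋_comm _ D.al_mem _ (core_Nk_mem D)).eq
  rw [coreY]
  linear_combination (norm := noncomm_ring) core_E3 D - core_E5 D + core_E4 D - D.tame
    - core_E7 D * D.F + c1 + c2 * (D.S - 1) + coreNk D * c1 + coreNk D * core_E3 D
    - core_Nk_T D * (D.F - D.al)

/-- (4) -/
private theorem core_Y_N : coreY D * (D.S - 1) = D.al * (coreNk D * (D.S - 1)) := by
  have c4 : D.g * D.T = D.T * D.g := (D.𝕋_comm _ D.g_mem _ D.T_mem).eq
  rw [coreY]
  linear_combination (norm := noncomm_ring) core_E4 D - D.g * core_E2 D - c4 * (D.S - 1)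
    - core_E5 D

private theorem core_Y_mem (x : D.W) : coreY D x ∈ D.A := by
  have h1 := core_B_mem D x
  have h2 := D.A_stable _ D.g_mem _ (core_N_mem D x)
  have e : coreY D x = (D.F - D.al) x - D.g ((D.S - 1) x) := by
    simp only [coreY, LinearMap.sub_apply, Module.End.mul_apply]
  rw [e]
  exact D.A.sub_mem h1 h2

private theorem core_T_Y_apply (x : D.W) : D.T (coreY D x) = 0 := by
  rw [← Module.End.mul_apply, core_T_Y]
  rfl

/-- (3) -/
private theorem core_N_Y_apply (x : D.W) : (D.S - 1) (coreY D x) = 0 := by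
  rw [LinearMap.sub_apply, D.H2c _ (core_Y_mem D x), core_T_Y_apply, Module.End.one_apply,
    add_zero, sub_self]

private theorem core_Y_comm (t : Module.End (ZMod p) D.W) (ht : t ∈ D.𝕋) :
    Commute (coreY D) t := by
  rw [coreY]
  exact ((D.F_comm t ht).sub_left (D.𝕋_comm _ D.al_mem _ ht)).sub_left
    ((D.𝕋_comm _ D.g_mem _ ht).mul_left ((D.S_comm t ht).sub_left (Commute.one_left t)))

private theorem core_Y_comm_apply (t : Module.End (ZMod p) D.W) (ht : t ∈ D.𝕋) (x : D.W) :
    coreY D (t x) = t (coreY D x) := by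
  rw [← Module.End.mul_apply, (core_Y_comm D t ht).eq, Module.End.mul_apply]

private theorem core_comm_apply {s t : Module.End (ZMod p) D.W} (h : Commute s t) (x : D.W) :
    s (t x) = t (s x) := by
  rw [← Module.End.mul_apply, h.eq, Module.End.mul_apply]

/-- operators commuting with `T` preserve `ker pr`. -/
private theorem core_pres {t : Module.End (ZMod p) D.W} (h : Commute t D.T) (x : D.W)
    (hx : D.pr x = 0) : D.pr (t x) = 0 := by
  obtain ⟨v, rfl⟩ := (D.ker_pr x).1 hx
  exact (D.ker_pr _).2 ⟨t v, core_comm_apply D h v⟩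

private theorem core_pr_of_Nm (z : D.W) (hz : (D.T ^ (D.P - 1)) z = 0) : D.pr z = 0 :=
  (D.ker_pr z).2 (core_ker_Nm D z hz)

end Ident

/-! ## The endgame datum -/

theorem nodeCore : NodeCore := by
  intro p _ D
  have hNmT : D.T ^ (D.P - 1) ∈ D.𝕋 := D.𝕋.pow_mem D.T_mem _
  have hSN : Commute (D.S - 1) D.T := (D.S_comm _ D.T_mem).sub_left (Commute.one_left _)
  obtain ⟨N0, hN0⟩ := core_exists_ind D.pr D.pr_surj (D.S - 1) (core_pres D hSN)
  choose Tl0 hTl0 using fun i => core_exists_ind D.pr D.pr_surj (D.Tl i)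
    (core_pres D (D.𝕋_comm _ (D.Tl_mem i) _ D.T_mem))
  obtain ⟨Z0, hZ0⟩ := core_exists_rel D.pr D.pr_surj (D.T ^ (D.P - 1)) (coreY D)
    (fun x => by
      obtain ⟨z, hz⟩ := D.H1 _ (core_T_Y_apply D x)
      exact ⟨z, hz.symm⟩)
    (fun x z hx hz => by
      obtain ⟨v, rfl⟩ := (D.ker_pr x).1 hx
      rw [core_Y_comm_apply D _ D.T_mem, core_T_Y_apply] at hz
      exact core_pr_of_Nm D z hz)
  have hex : ∀ x, ∃ z, (D.T ^ (D.P - 1)) z = coreY D x := fun x => by
    obtain ⟨z, hz⟩ := D.H1 _ (core_T_Y_apply D x)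
    exact ⟨z, hz.symm⟩
  have hN0' : ∀ x, N0 (D.pr x) = D.pr (D.S x - x) := fun x => by
    rw [hN0, LinearMap.sub_apply, Module.End.one_apply]
  have : Module.Finite (ZMod p) D.W0 := Module.Finite.of_surjective D.pr D.pr_surj
  refine ⟨{ W0 := D.W0, ι := D.ι, Tl := Tl0, a := D.a, N0 := N0, Z0 := Z0,
            c := (D.κ : ZMod p) * D.u, c_ne := mul_ne_zero D.hκ D.u_ne,
            Tl_comm := ?_, nilp := ?_, Z0_Tl := ?_, N0_Z0 := ?_, Z0_N0 := ?_, exact := ?_,
            unram := ?_ }⟩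
  · intro i j
    apply LinearMap.ext
    intro x0
    obtain ⟨x, rfl⟩ := D.pr_surj x0
    rw [Module.End.mul_apply, Module.End.mul_apply, hTl0, hTl0, hTl0, hTl0,
      core_comm_apply D (D.𝕋_comm _ (D.Tl_mem i) _ (D.Tl_mem j))]
  · intro i
    obtain ⟨n, hn⟩ := D.nilp i
    refine ⟨n, ?_⟩
    have key : ∀ (m : ℕ) (x : D.W),
        ((Tl0 i - D.a i • (1 : Module.End (ZMod p) D.W0)) ^ m) (D.pr x) =
          D.pr (((D.Tl i - D.a i • (1 : Module.End (ZMod p) D.W)) ^ m) x) := by
      intro m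
      induction m with
      | zero => intro x; simp
      | succ m ih =>
        intro x
        rw [pow_succ, pow_succ, Module.End.mul_apply, Module.End.mul_apply, ← ih]
        congr 1
        simp only [LinearMap.sub_apply, LinearMap.smul_apply, Module.End.one_apply, map_sub,
          map_smul, hTl0]
    apply LinearMap.ext
    intro x0
    obtain ⟨x, rfl⟩ := D.pr_surj x0
    rw [key, hn]
    simp
  · intro i
    apply LinearMap.ext
    intro x0
    obtain ⟨x, rfl⟩ := D.pr_surj x0
    obtain ⟨z, hz⟩ := hex x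
    rw [Module.End.mul_apply, Module.End.mul_apply, hTl0, hZ0 x z hz, hTl0]
    apply hZ0
    rw [core_Y_comm_apply D _ (D.Tl_mem i), ← hz,
      core_comm_apply D (D.𝕋_comm _ hNmT _ (D.Tl_mem i))]
  · apply LinearMap.ext
    intro x0
    obtain ⟨x, rfl⟩ := D.pr_surj x0
    obtain ⟨z, hz⟩ := hex x
    rw [Module.End.mul_apply, hZ0 x z hz, hN0, LinearMap.zero_apply]
    apply core_pr_of_Nm
    have hc : Commute (D.T ^ (D.P - 1)) (D.S - 1) :=
      ((D.S_comm _ hNmT).sub_left (Commute.one_left _)).symm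
    rw [core_comm_apply D hc, hz, core_N_Y_apply]
  · apply LinearMap.ext
    intro x0
    obtain ⟨x, rfl⟩ := D.pr_surj x0
    rw [Module.End.mul_apply, LinearMap.smul_apply, hN0]
    have h4 : coreY D ((D.S - 1) x) = D.al (coreNk D ((D.S - 1) x)) := by
      rw [← Module.End.mul_apply, core_Y_N]
      rfl
    rw [hZ0 ((D.S - 1) x) ((D.κ : ZMod p) • D.al ((D.S - 1) x)), map_smul, D.pr_al, smul_smul]
    rw [h4, map_smul, core_comm_apply D (D.𝕋_comm _ hNmT _ D.al_mem), coreNk,
      LinearMap.smul_apply, map_smul]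
  · intro x0 hx0
    obtain ⟨x, rfl⟩ := D.pr_surj x0
    rw [hN0'] at hx0
    obtain ⟨y, hy⟩ := D.exact x hx0
    exact ⟨D.pr y, by rw [hN0', hy]⟩
  · intro x0 hx0
    obtain ⟨x, rfl⟩ := D.pr_surj x0
    rw [hN0']
    apply D.unram
    intro i
    rw [← hTl0, hx0]

end Fermat.Agent.S43.Deform
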